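import Fermat.Agent.S59.TW.Spec
import Fermat.Agent.S59.H59.TWGal1

/-!
# Row S59, cell TW, layer 2: leaf INO = `InertiaOrderStatement` (helper123)

At a Taylor–Wiles prime `q` an inertia value `w` at `(φ, σ)`, `σ ∈ I_P`, is a root of
`charpoly ρ(σ) = (X - w)(X - w')` with `w w' = 1` and `w ^ (p-part of q - 1) = 1`.

Route: `H59.twGal1` (TW-GAL1, on main) gives a basis in which the decomposition group acts
diagonally through `ξ 0`, `ξ 1`.  From `(X - ξ 0 φ)(X - ξ 1 φ) = (X - a)(X - b)`,
`ξ 0 φ ≡ a` and `a - b` a unit we get `ξ 0 φ = a`, `ξ 1 φ = b`; then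
`tr ρ(φσ) - b tr ρ(σ) = (a - b) ξ 0 σ`, so `w = ξ 0 σ`, and `w' := ξ 1 σ`.
-/

set_option autoImplicit false
set_option linter.unusedSectionVars false
set_option linter.unusedVariables false
set_option linter.style.haveILetI false

noncomputable section

namespace Fermat.Agent.S59.TW.H123

open Polynomial IsLocalRing
open Fermat.Agent.S59.Arch Fermat.Agent.S59.TW Fermat.Agent.S59.TW.H959

/-- The inertia group is contained in the decomposition group. -/
theorem mem_decomposition_of_mem_inertia123 {P : ValuationSubring (AlgebraicClosure ℚ)}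
    {σ : AlgebraicClosure ℚ ≃ₐ[ℚ] AlgebraicClosure ℚ} (h : σ ∈ P.inertiaSubgroupIn ℚ) :
    σ ∈ P.decompositionSubgroup ℚ := by
  obtain ⟨τ, -, rfl⟩ := h
  exact τ.2

section Diag

variable {A : Type} [CommRing A] {V : Type} [AddCommGroup V] [Module A V]

/-- The matrix of an endomorphism which is diagonal in a basis. -/
theorem toMatrix_eq_diagonal123 (bs : Module.Basis (Fin 2) A V) (f : Module.End A V)
    (d : Fin 2 → A) (hf : ∀ i, f (bs i) = d i • bs i) :
    LinearMap.toMatrix bs bs f = Matrix.diagonal d := by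
  ext i j
  rw [LinearMap.toMatrix_apply, hf, map_smul, Module.Basis.repr_self, Finsupp.smul_apply,
    Finsupp.single_apply, Matrix.diagonal_apply, smul_eq_mul]
  by_cases hij : i = j
  · subst hij; simp
  · have hji : ¬ j = i := fun h => hij h.symm
    simp [hij, hji]

theorem charpoly_of_diag123 (bs : Module.Basis (Fin 2) A V) (f : Module.End A V)
    (d : Fin 2 → A) (hf : ∀ i, f (bs i) = d i • bs i) :
    haveI : Module.Free A V := Module.Free.of_basis bs
    haveI : Module.Finite A V := Module.Finite.of_basis bs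
    LinearMap.charpoly f = (X - C (d 0)) * (X - C (d 1)) := by
  haveI : Module.Free A V := Module.Free.of_basis bs
  haveI : Module.Finite A V := Module.Finite.of_basis bs
  rw [← LinearMap.charpoly_toMatrix f bs, toMatrix_eq_diagonal123 bs f d hf,
    Matrix.charpoly_diagonal, Fin.prod_univ_two]

theorem trace_of_diag123 (bs : Module.Basis (Fin 2) A V) (f : Module.End A V)
    (d : Fin 2 → A) (hf : ∀ i, f (bs i) = d i • bs i) :
    LinearMap.trace A V f = d 0 + d 1 := by
  rw [LinearMap.trace_eq_matrix_trace A bs f, toMatrix_eq_diagonal123 bs f d hf,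
    Matrix.trace_diagonal, Fin.sum_univ_two]

end Diag

/-- Two factorisations of a monic quadratic with congruent first roots and unit discriminant
coincide. -/
theorem roots_eq_of_factor123 {A : Type} [CommRing A] [IsLocalRing A] {x₀ x₁ a b : A}
    (h : (X - C x₀) * (X - C x₁) = (X - C a) * (X - C b))
    (h0 : x₀ - a ∈ maximalIdeal A) (hab : IsUnit (a - b)) : x₀ = a ∧ x₁ = b := by
  have hsum : x₀ + x₁ = a + b := by
    have h1 := congrArg (fun f : A[X] => f.coeff 1) h
    simp only [mul_sub, sub_mul, coeff_sub, coeff_X_mul, coeff_C_mul, coeff_mul_C,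
      coeff_X_zero, coeff_X_one, coeff_C] at h1
    simp at h1
    linear_combination -h1
  have hprod : x₀ * x₁ = a * b := by
    have h1 := congrArg (fun f : A[X] => f.coeff 0) h
    simp only [mul_sub, sub_mul, coeff_sub, coeff_X_zero, coeff_C_zero, mul_coeff_zero] at h1
    simp at h1
    linear_combination h1
  -- `(a - x₀) (a - x₁) = 0`
  have hzero : (a - x₀) * (a - x₁) = 0 := by
    linear_combination (-a) * hsum + hprod
  have hunit : IsUnit (a - x₁) := by
    -- `a - x₁ = (a - b) + (x₀ - a)`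
    have h2 : a - x₁ = (a - b) + (x₀ - a) := by linear_combination -hsum
    rw [h2]
    by_contra hn
    have hm : (a - b) + (x₀ - a) ∈ maximalIdeal A := hn
    have : a - b ∈ maximalIdeal A := by
      have := (maximalIdeal A).sub_mem hm h0
      simpa using this
    exact this hab
  have hx0 : x₀ = a := by
    have := hunit.mul_left_eq_zero.mp hzero
    exact (sub_eq_zero.mp this).symm
  refine ⟨hx0, ?_⟩
  rw [hx0] at hsum
  exact add_left_cancel hsum

/-- **LEAF INO** (`InertiaOrderStatement` of `S59/TW/Spec.lean`, verbatim). -/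
theorem inertiaOrder : InertiaOrderStatement := by
  intro p _ A _ _ _ _ _ hpA ρ hdet q hq hqp hpq hunr P hP φ hφ σ hσ a₀ w hw
  obtain ⟨a, b, ha₀, hab, hchar, hwab⟩ := hw
  -- the residual characteristic polynomial
  have hcharres : LinearMap.charpoly (ρ.residual.ρ φ) =
      (X - C (residue A a)) * (X - C (residue A b)) := by
    have h1 : LinearMap.charpoly (ρ.residual.ρ φ) =
        LinearMap.charpoly ((ρ.ρ φ).baseChange (ResidueField A)) := rfl
    rw [h1, LinearMap.charpoly_baseChange, hchar, Polynomial.map_mul, Polynomial.map_sub,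
      Polynomial.map_sub, Polynomial.map_X, Polynomial.map_C, Polynomial.map_C]
    rfl
  have hαβ : residue A a ≠ residue A b := by
    intro h
    have h0 : residue A (a - b) = 0 := by rw [map_sub, h, sub_self]
    exact (residue_eq_zero_iff _).mp h0 hab
  obtain ⟨bs, ξ, hD⟩ := Fermat.Agent.S59.H59.twGal1 p q hq hpq A hpA ρ hdet hunr P hP φ hφ
    _ _ hαβ hcharres
  have hφD : φ ∈ P.decompositionSubgroup ℚ := hφ.mem_decompositionSubgroup
  have hσD : σ ∈ P.decompositionSubgroup ℚ := mem_decomposition_of_mem_inertia123 hσ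
  have hφb : ∀ i, ρ.ρ φ (bs i) = ξ i φ • bs i := hD.diag φ hφD
  have hσb : ∀ i, ρ.ρ σ (bs i) = ξ i σ • bs i := hD.diag σ hσD
  have hφσb : ∀ i, ρ.ρ (φ * σ) (bs i) = (ξ i φ * ξ i σ) • bs i := by
    intro i
    rw [map_mul, Module.End.mul_apply, hσb, map_smul, hφb, smul_smul, mul_comm]
  -- the eigenvalues of `ρ(φ)` are `a`, `b`
  have hcφ := charpoly_of_diag123 bs (ρ.ρ φ) (fun i => ξ i φ) hφb
  have hfac : (X - C (ξ 0 φ)) * (X - C (ξ 1 φ)) = (X - C a) * (X - C b) := by
    rw [← hchar]
    exact hcφ.symm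
  have hx0 : ξ 0 φ - a ∈ maximalIdeal A := by
    rw [← residue_eq_zero_iff, map_sub, (hD.frob φ hφ).1, sub_self]
  obtain ⟨hξ0, hξ1⟩ := roots_eq_of_factor123 hfac hx0 hab
  -- the inertia value
  have htφσ : ρ.trace (φ * σ) = a * ξ 0 σ + b * ξ 1 σ := by
    have h1 := trace_of_diag123 bs (ρ.ρ (φ * σ)) (fun i => ξ i φ * ξ i σ) hφσb
    simp only [hξ0, hξ1] at h1
    exact h1
  have htσ : ρ.trace σ = ξ 0 σ + ξ 1 σ :=
    trace_of_diag123 bs (ρ.ρ σ) (fun i => ξ i σ) hσb
  have hw : w = ξ 0 σ := by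
    have h1 : (a - b) * w = (a - b) * ξ 0 σ := by
      rw [hwab, htφσ, htσ]
      ring
    exact hab.mul_left_cancel h1
  refine ⟨ξ 1 σ, ?_, ?_, ?_⟩
  · rw [hw]
    exact hD.inertia_mul σ hσ
  · rw [hw]
    exact hD.inertia_pow σ hσ 0
  · rw [hw]
    exact charpoly_of_diag123 bs (ρ.ρ σ) (fun i => ξ i σ) hσb

end Fermat.Agent.S59.TW.H123

end
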