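import Fermat.Agent.S59.TW.H959.Iface
import Fermat.Agent.S53.GlueInj
import Fermat.Agent.S56.H134.Cotangent
import Fermat.Agent.S56.H596.Dict

/-!
# Row S59, cell TW, layer 1: leaf `DefRingResStatement` (helper123)

For `Σ ⊆ Σ'` the universal deformation ring of type `Σ'` surjects onto the one of type `Σ`,
compatibly with the universal deformations.

* the map `res : R_{Σ'} → R_Σ` comes from the universal property of `R_{Σ'}`
  (the condition `sigmaCond` is monotone in `Σ`);
* surjectivity: by the tangent criterion `surjective_of_tangent_injective123`.  If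
  `𝔪_{R'} R ≠ 𝔪_R` there is a functional `l ≠ 0` on the relative cotangent space of `R` which
  vanishes on the image of `𝔪_{R'}`; the tangent vectors `φ = homOfDual l` (surjective) and
  `ψ = homOfDual 0` agree on `R'`, hence the two push-forwards of the universal deformation of
  type `Σ` are equivalent, and the uniqueness part of the universal property of `R_Σ` gives
  `φ = ψ`, i.e. `l = 0`.  So `𝔪_{R'} R = 𝔪_R` and `res` is onto by completeness.
-/

set_option autoImplicit false
set_option linter.unusedSectionVars false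
set_option linter.unusedVariables false
set_option linter.style.haveILetI false

noncomputable section

namespace Fermat.Agent.S59.TW.H123

open IsLocalRing GaloisRep
open Fermat.Agent.S59.Arch

/-! ### Monotonicity of the condition in `Σ` -/

theorem pCond_mono123 {𝒪 : Type} [CommRing 𝒪] {p : ℕ} {t : PType} {Sig Sig' : Finset ℕ}
    (hSig : Sig ⊆ Sig') {A : Type} [CommRing A] [IsLocalRing A] [Algebra 𝒪 A]
    {ρ : GaloisRepAdic A} (hρ : pCond 𝒪 p t Sig ρ) : pCond 𝒪 p t Sig' ρ := by
  cases t with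
  | flat => exact ⟨hρ.1, hρ.2.1, fun q hq hqS => hρ.2.2 q hq (fun h => hqS (hSig h))⟩
  | sord => exact ⟨hρ.1, hρ.2.1, fun q hq hqS => hρ.2.2 q hq (fun h => hqS (hSig h))⟩
  | ord => exact ⟨hρ.1, hρ.2.1, fun q hq hqS => hρ.2.2 q hq (fun h => hqS (hSig h))⟩

theorem sigmaCond_mono123 {𝒪 : Type} [CommRing 𝒪] {p : ℕ} {t : PType} {Smin Sig Sig' : Finset ℕ}
    (hSig : Sig ⊆ Sig') {A : Type} [CommRing A] [IsLocalRing A] [Algebra 𝒪 A]
    {ρ : GaloisRepAdic A} (hρ : sigmaCond 𝒪 p t Smin Sig ρ) : sigmaCond 𝒪 p t Smin Sig' ρ :=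
  ⟨pCond_mono123 hSig hρ.1, hρ.2⟩

/-! ### The tangent criterion for surjectivity -/

section Tangent

open Fermat.Agent.S56 Fermat.Agent.S56.H134 Fermat.Agent.S56.H596

attribute [local instance] Fermat.Agent.S56.tanAlgebra

variable {𝒪 : Type} [CommRing 𝒪] [IsLocalRing 𝒪]
variable {R' : Type} [CommRing R'] [IsLocalRing R'] [Algebra 𝒪 R'] [IsLocalHom (algebraMap 𝒪 R')]
variable {R : Type} [CommRing R] [IsLocalRing R] [Algebra 𝒪 R] [IsLocalHom (algebraMap 𝒪 R)]

/-- A functional on the relative cotangent space of `R` which kills the image of `𝔪_{R'}` gives a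
tangent vector of `R` which agrees on `R'` with the trivial tangent vector. -/
theorem homOfDual_comp_eq123
    (hres : Function.Surjective (IsLocalRing.residue R ∘ algebraMap 𝒪 R))
    (f : R' →ₐ[𝒪] R) (hf : IsLocalHom (f : R' →+* R))
    (l : Module.Dual (ResidueField R) (RelCotangent 𝒪 R))
    (hl : ∀ (z : R') (hz : z ∈ maximalIdeal R'),
      l (toRel 𝒪 R ⟨f z, Fermat.Agent.S56.H966.map_mem_maximalIdeal (f : R' →+* R) hf hz⟩) = 0)
    (x : R') :
    homOfDual hres l (f x) = homOfDual hres 0 (f x) := by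
  set a : 𝒪 := liftO hres (f x) with ha
  have hmem : f x - algebraMap 𝒪 R a ∈ maximalIdeal R :=
    sub_algebraMap_mem hres (residue_liftO hres (f x))
  have hz : x - algebraMap 𝒪 R' a ∈ maximalIdeal R' := by
    by_contra hnot
    have hu : IsUnit (x - algebraMap 𝒪 R' a) := by
      by_contra hn
      exact hnot hn
    have hu' : IsUnit ((f : R' →+* R) (x - algebraMap 𝒪 R' a)) := hu.map _
    have h1 : (f : R' →+* R) (x - algebraMap 𝒪 R' a) = f x - algebraMap 𝒪 R a := by
      simp
    rw [h1] at hu'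
    exact hmem hu'
  have h2 := hl _ hz
  have h3 : l (relD hres (f x)) = 0 := by
    rw [relD_eq hres (residue_liftO hres (f x))]
    have h4 : (⟨f x - algebraMap 𝒪 R (liftO hres (f x)),
        sub_algebraMap_mem hres (residue_liftO hres (f x))⟩ : maximalIdeal R) =
        ⟨f (x - algebraMap 𝒪 R' a),
          Fermat.Agent.S56.H966.map_mem_maximalIdeal (f : R' →+* R) hf hz⟩ := by
      ext
      simp [ha]
    rw [h4]
    exact h2
  rw [homOfDual_apply, homOfDual_apply, h3, LinearMap.zero_apply]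

/-- **Tangent criterion.**  A local homomorphism `f : R' → R` of complete Noetherian local
`𝒪`-algebras with residue field `k_𝒪` is surjective as soon as a surjective tangent vector of `R`
is determined by its restriction to `R'`. -/
theorem surjective_of_tangent_injective123
    [IsNoetherianRing R'] [IsAdicComplete (maximalIdeal R') R']
    [IsNoetherianRing R] [IsAdicComplete (maximalIdeal R) R]
    (hres : Function.Surjective (IsLocalRing.residue R ∘ algebraMap 𝒪 R))
    (f : R' →ₐ[𝒪] R) (hf : IsLocalHom (f : R' →+* R))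
    (hinj : ∀ φ ψ : TanHom 𝒪 R, Function.Surjective φ → (∀ x, φ (f x) = ψ (f x)) → φ = ψ) :
    Function.Surjective f := by
  classical
  have hfm : ∀ {z : R'}, z ∈ maximalIdeal R' → f z ∈ maximalIdeal R := fun hz =>
    Fermat.Agent.S56.H966.map_mem_maximalIdeal (f : R' →+* R) hf hz
  set S : Set (RelCotangent 𝒪 R) :=
    {v | ∃ (z : R') (hz : z ∈ maximalIdeal R'), toRel 𝒪 R ⟨f z, hfm hz⟩ = v} with hS
  -- the image of `𝔪_{R'}` spans the relative cotangent space
  have hspan : Submodule.span (ResidueField R) S = ⊤ := by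
    by_contra hne
    obtain ⟨l, hl0, hl⟩ := Submodule.exists_le_ker_of_lt_top _ (lt_top_iff_ne_top.2 hne)
    have hl' : ∀ (z : R') (hz : z ∈ maximalIdeal R'), l (toRel 𝒪 R ⟨f z, hfm hz⟩) = 0 :=
      fun z hz => LinearMap.mem_ker.mp (hl (Submodule.subset_span ⟨z, hz, rfl⟩))
    obtain ⟨v, hv⟩ : ∃ v, l v ≠ 0 := by
      by_contra h
      push_neg at h
      exact hl0 (LinearMap.ext h)
    obtain ⟨z, rfl⟩ := toRel_surjective v
    have hsurj : Function.Surjective (homOfDual hres l) := by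
      refine tanHom_surjective_of_snd_ne_zero (homOfDual hres l) (z : R) ?_
      rw [homOfDual_apply, relD_of_mem]
      simp only [TrivSqZeroExt.snd_add, TrivSqZeroExt.snd_inl, TrivSqZeroExt.snd_inr, zero_add]
      intro h0
      exact hv ((map_eq_zero_iff _ (resEquiv hres).symm.injective).mp h0)
    have h1 := hinj (homOfDual hres l) (homOfDual hres 0) hsurj
      (homOfDual_comp_eq123 hres f hf l hl')
    exact hl0 (homOfDual_injective hres h1)
  -- hence `𝔪_R = 𝔪_{R'} R + 𝔪_R²`
  set I : Ideal R := (maximalIdeal R').map (f : R' →+* R) with hI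
  have hOI : Ideal.map (algebraMap 𝒪 R) (maximalIdeal 𝒪) ≤ I := by
    rw [Ideal.map_le_iff_le_comap]
    intro c hc
    rw [Ideal.mem_comap, ← f.commutes]
    exact Ideal.mem_map_of_mem (f : R' →+* R)
      (Fermat.Agent.S56.H966.map_mem_maximalIdeal (algebraMap 𝒪 R') inferInstance hc)
  have hle0 : Ideal.map (algebraMap 𝒪 R) (maximalIdeal 𝒪) ⊔ maximalIdeal R ^ 2 ≤
      I ⊔ maximalIdeal R ^ 2 := sup_le_sup_right hOI _
  have hfI : ∀ {z : R'}, z ∈ maximalIdeal R' → f z ∈ I ⊔ maximalIdeal R ^ 2 := fun hz =>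
    Ideal.mem_sup_left (Ideal.mem_map_of_mem (f : R' →+* R) hz)
  have key : ∀ w ∈ Submodule.span (ResidueField R) S,
      ∀ z : maximalIdeal R, toRel 𝒪 R z = w → (z : R) ∈ I ⊔ maximalIdeal R ^ 2 := by
    intro w hw
    induction hw using Submodule.span_induction with
    | mem w hw =>
      obtain ⟨y, hy, rfl⟩ := hw
      intro z hz
      have h0 : toRel 𝒪 R (z - ⟨f y, hfm hy⟩) = 0 := by rw [toRel_sub, hz, sub_self]
      have h1 := hle0 ((toRel_eq_zero_iff _).mp h0)
      have h2 : (z : R) = ((z - ⟨f y, hfm hy⟩ : maximalIdeal R) : R) + f y := by simp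
      rw [h2]
      exact Ideal.add_mem _ h1 (hfI hy)
    | zero =>
      intro z hz
      exact hle0 ((toRel_eq_zero_iff _).mp hz)
    | add w₁ w₂ _ _ ih₁ ih₂ =>
      intro z hz
      obtain ⟨z₁, hz₁⟩ := toRel_surjective w₁
      have h2 : toRel 𝒪 R (z - z₁) = w₂ := by rw [toRel_sub, hz, hz₁, add_sub_cancel_left]
      have h3 : (z : R) = z₁ + ((z - z₁ : maximalIdeal R) : R) := by simp
      rw [h3]
      exact Ideal.add_mem _ (ih₁ z₁ hz₁) (ih₂ _ h2)
    | smul c w₁ _ ih =>
      intro z hz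
      obtain ⟨z₁, hz₁⟩ := toRel_surjective w₁
      obtain ⟨r₀, rfl⟩ := residue_surjective c
      have h0 : toRel 𝒪 R (z - r₀ • z₁) = 0 := by
        rw [toRel_sub, toRel_smul, hz, hz₁, sub_self]
      have h1 := hle0 ((toRel_eq_zero_iff _).mp h0)
      have h3 : (z : R) = ((z - r₀ • z₁ : maximalIdeal R) : R) + r₀ * z₁ := by simp
      rw [h3]
      exact Ideal.add_mem _ h1 (Ideal.mul_mem_left _ _ (ih z₁ hz₁))
  have hC : maximalIdeal R ≤ I ⊔ maximalIdeal R ^ 2 := fun y hy =>
    key (toRel 𝒪 R ⟨y, hy⟩) (by rw [hspan]; exact Submodule.mem_top) ⟨y, hy⟩ rfl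
  -- Nakayama
  have hle : maximalIdeal R ≤ I := by
    have hfg : (maximalIdeal R).FG := IsNoetherian.noetherian _
    refine Submodule.le_of_le_smul_of_le_jacobson_bot hfg
      (IsLocalRing.maximalIdeal_le_jacobson ⊥) ?_
    rw [smul_eq_mul, ← pow_two]
    exact hC
  have hIeq : I = maximalIdeal R :=
    le_antisymm (Ideal.map_le_iff_le_comap.2 fun a ha => hfm ha) hle
  -- completeness
  haveI : IsHausdorff ((maximalIdeal R').map (f : R' →+* R)) R := by
    rw [← hI, hIeq]
    infer_instance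
  have hsurj : Function.Surjective (f : R' →+* R) := by
    refine surjective_of_mk_map_comp_surjective (I := maximalIdeal R') (f : R' →+* R) ?_
    intro y
    obtain ⟨y', rfl⟩ := Ideal.Quotient.mk_surjective y
    obtain ⟨c, hc⟩ := hres (residue R y')
    refine ⟨algebraMap 𝒪 R' c, ?_⟩
    rw [RingHom.comp_apply, Ideal.Quotient.eq, ← hI, hIeq, ← residue_eq_zero_iff, map_sub]
    have h1 : (f : R' →+* R) (algebraMap 𝒪 R' c) = algebraMap 𝒪 R c := f.commutes c
    rw [h1, sub_eq_zero]
    exact hc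
  exact hsurj

end Tangent

/-! ### The leaf -/

section Leaf

open Fermat.Agent.S56 Fermat.Agent.S56.H134 Fermat.Agent.S56.H596 Fermat.Agent.S53.H113

attribute [local instance] Fermat.Agent.S56.tanAlgebra

/-- The residual representation of the push-forward of a deformation along a tangent vector. -/
theorem residual_tanHom123 {𝒪 : Type} [CommRing 𝒪] [IsLocalRing 𝒪]
    (ρbar : ResidualGaloisRep (ResidueField 𝒪))
    {R : Type} [CommRing R] [IsLocalRing R] [Algebra 𝒪 R] [hloc : IsLocalHom (algebraMap 𝒪 R)]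
    (ρ : GaloisRepAdic R)
    (hρ : ρ.residual.IsEquiv (ρbar.baseChangeAlong (ResidueField.map (algebraMap 𝒪 R))))
    (φ : TanHom 𝒪 R) :
    haveI := isLocalHom_tanAlgebra 𝒪
    (ρ.baseChangeAlong (φ : R →+* DualNumber (ResidueField 𝒪)) (isLocalHom_tanHom φ)).residual.IsEquiv
      (ρbar.baseChangeAlong
        (ResidueField.map (algebraMap 𝒪 (DualNumber (ResidueField 𝒪))))) := by
  haveI := isLocalHom_tanAlgebra 𝒪
  obtain ⟨rb, hrb, ⟨e⟩⟩ := Fermat.Agent.S53.exists_toRes ρbar
  obtain ⟨rR, hrR, hlift, ⟨eR⟩⟩ := Fermat.Agent.S53.exists_lift_of_residual_isEquiv ρbar rb hrb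
    ⟨e⟩ ρ hρ
  have hcont : Fermat.Agent.S53.MatCont
      (Fermat.Agent.S53.mapRep (φ : R →+* DualNumber (ResidueField 𝒪)) rR) :=
    hrR.map _ (isLocalHom_tanHom φ)
  have hliftφ : ∀ σ,
      (Fermat.Agent.S53.mapRep (φ : R →+* DualNumber (ResidueField 𝒪)) rR σ).map
        (residue (DualNumber (ResidueField 𝒪))) =
      (rb σ).map (ResidueField.map (algebraMap 𝒪 (DualNumber (ResidueField 𝒪)))) := by
    intro σ
    ext i j
    simp only [Matrix.map_apply]
    rw [residue_dualNumber_eq]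
    congr 1
    have h1 := congrFun (congrFun (hlift σ) i) j
    simp only [Matrix.map_apply] at h1
    exact fst_tanHom_eq_of_map hloc φ (rR σ i j) (rb σ i j) h1
  obtain ⟨e2⟩ := Fermat.Agent.S53.baseChangeAlong_toAdic
    (φ : R →+* DualNumber (ResidueField 𝒪)) (isLocalHom_tanHom φ) rR hrR
  obtain ⟨e4⟩ := Fermat.Agent.S53.residual_isEquiv_of_lift ρbar rb hrb ⟨e⟩ _ hcont hliftφ
  exact ⟨((eR.baseChangeAlong (φ : R →+* DualNumber (ResidueField 𝒪))
    (isLocalHom_tanHom φ)).trans e2).residual.trans e4⟩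

/-- **LEAF GAL-RES** (`DefRingResStatement` of `S59/TW/H959/Iface.lean`, verbatim). -/
theorem defRingRes : Fermat.Agent.S59.TW.H959.DefRingResStatement := by
  intro p _ hp2 𝒪 _ _ _ _ _ hp𝒪 ρbar t Smin Sig Sig' hSig hc hc' D' D
  classical
  have h1 : sigmaCond 𝒪 p t Smin Sig' D.ρ := sigmaCond_mono123 hSig D.isOfType
  obtain ⟨res, ⟨hres, hE⟩, -⟩ :=
    D'.universal D.R D.residue_surjective D.ρ h1 D.residual_isEquiv
  refine ⟨res, ?_, hres, hE⟩
  refine surjective_of_tangent_injective123 D.residue_surjective res hres ?_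
  intro φ ψ hφs hφψ
  haveI hlocD := isLocalHom_tanAlgebra 𝒪
  haveI := isAdicComplete_dualNumber (ResidueField 𝒪)
  have hφloc := isLocalHom_tanHom φ
  have hψloc := isLocalHom_tanHom ψ
  have h𝒟 : sigmaCond 𝒪 p t Smin Sig
      (D.ρ.baseChangeAlong (φ : D.R →+* DualNumber (ResidueField 𝒪)) hφloc) :=
    (hc.iff_forall_surjective D.instIsLocalHom D.residue_surjective D.ρ).mp D.isOfType
      (Fermat.Agent.S53.isArtinianTestAlgebra_dualNumber 𝒪) φ hφloc hφs
  have hresid := residual_tanHom123 ρbar D.ρ D.residual_isEquiv φ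
  have huniv := D.universal (DualNumber (ResidueField 𝒪)) (residue_tanAlgebra_surjective 𝒪)
    _ h𝒟 hresid
  -- the two push-forwards are equivalent
  have hχ : IsLocalHom ((φ : D.R →+* DualNumber (ResidueField 𝒪)).comp (res : D'.R →+* D.R)) :=
    ⟨fun a ha => hres.map_nonunit a (hφloc.map_nonunit _ ha)⟩
  have e1 := baseChangeAlong_comp_isEquiv' (res : D'.R →+* D.R) hres
    (φ : D.R →+* DualNumber (ResidueField 𝒪)) hφloc _ hχ rfl D'.ρ
  have e2 := baseChangeAlong_comp_isEquiv' (res : D'.R →+* D.R) hres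
    (ψ : D.R →+* DualNumber (ResidueField 𝒪)) hψloc _ hχ
    (RingHom.ext fun x => (hφψ x).symm) D'.ρ
  have e3 := isEquiv_baseChangeAlong (ψ : D.R →+* DualNumber (ResidueField 𝒪)) hψloc
    (isEquiv_symm hE)
  have e4 := isEquiv_baseChangeAlong (φ : D.R →+* DualNumber (ResidueField 𝒪)) hφloc hE
  have hψφ := isEquiv_trans (isEquiv_trans (isEquiv_trans e3 e2) (isEquiv_symm e1)) e4
  exact huniv.unique ⟨hφloc, isEquiv_refl _⟩ ⟨hψloc, hψφ⟩

end Leaf

end Fermat.Agent.S59.TW.H123

end
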